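import Mathlib

set_option autoImplicit false

namespace Fermat.Agent.S51.Descent15

/-- Coprimality of integers from a prime-by-prime criterion. -/
lemma isCoprime_of_forall_prime {a b : ℤ}
    (h : ∀ p : ℕ, p.Prime → (p : ℤ) ∣ a → (p : ℤ) ∣ b → False) : IsCoprime a b := by
  rw [Int.isCoprime_iff_gcd_eq_one]
  have : Nat.Coprime a.natAbs b.natAbs := by
    apply Nat.coprime_of_dvd
    intro k hk hka hkb
    exact h k hk (Int.natCast_dvd.mpr hka) (Int.natCast_dvd.mpr hkb)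
  exact this

/-- A positive integer that is coprime to `b` with `a * b` a square is a square. -/
lemma sq_of_isCoprime_of_pos {a b c : ℤ} (hab : IsCoprime a b) (h : a * b = c ^ 2) (ha : 0 < a) :
    ∃ a0 : ℤ, a = a0 ^ 2 := by
  obtain ⟨a0, h0 | h0⟩ := Int.sq_of_isCoprime hab h
  · exact ⟨a0, h0⟩
  · exfalso
    have : 0 ≤ a0 ^ 2 := sq_nonneg a0
    omega

/-- If `x ^ 2 ∣ y ^ 2` (as an equation `y ^ 2 = x ^ 2 * k`) then `y = x * t`. -/
lemma exists_eq_mul_of_sq_eq_sq_mul {x y k : ℤ} (h : y ^ 2 = x ^ 2 * k) : ∃ t : ℤ, y = x * t := by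
  have : x ^ 2 ∣ y ^ 2 := ⟨k, h⟩
  exact (Int.pow_dvd_pow_iff (by norm_num)).mp this

lemma three_dvd_of_three_dvd_sq {t : ℤ} (h : (3 : ℤ) ∣ t ^ 2) : (3 : ℤ) ∣ t :=
  Int.prime_three.dvd_of_dvd_pow h

lemma two_dvd_of_two_dvd_sq {t : ℤ} (h : (2 : ℤ) ∣ t ^ 2) : (2 : ℤ) ∣ t :=
  Int.prime_two.dvd_of_dvd_pow h

end Fermat.Agent.S51.Descent15
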