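import Fermat.Agent.S51.Descent15.Local

set_option autoImplicit false

namespace Fermat.Agent.S51.Descent15

/-- Extract the full power of `p` from a nonzero integer. -/
lemma exists_pow_mul_not_dvd (p : ℕ) (hp : p ≠ 1) {m : ℤ} (hm : m ≠ 0) :
    ∃ (j : ℕ) (m₀ : ℤ), ¬ (p : ℤ) ∣ m₀ ∧ m = (p : ℤ) ^ j * m₀ := by
  have hm' : m.natAbs ≠ 0 := Int.natAbs_ne_zero.mpr hm
  obtain ⟨j, n', hn', hmn⟩ := Nat.exists_eq_pow_mul_and_not_dvd hm' p hp
  rcases Int.natAbs_eq m with h | h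
  · refine ⟨j, (n' : ℤ), ?_, ?_⟩
    · rwa [Int.natCast_dvd_natCast]
    · rw [h, hmn]; push_cast; ring
  · refine ⟨j, -(n' : ℤ), ?_, ?_⟩
    · rwa [dvd_neg, Int.natCast_dvd_natCast]
    · rw [h, hmn]; push_cast; ring

lemma prime_eq_of_dvd_pow {p q : ℕ} (hp : p.Prime) (hq : q.Prime) {j : ℕ}
    (h : (p : ℤ) ∣ (q : ℤ) ^ j) : p = q := by
  have h1 : (p : ℤ) ∣ (q : ℤ) := (Nat.prime_iff_prime_int.mp hp).dvd_of_dvd_pow h
  have h2 : p ∣ q := by exact_mod_cast h1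
  exact (Nat.prime_dvd_prime_iff_eq hp hq).mp h2

lemma not_dvd_of_isCoprime {m n : ℤ} (hcop : IsCoprime m n) {p : ℕ} (hp : p.Prime)
    (hm : (p : ℤ) ∣ m) (hn : (p : ℤ) ∣ n) : False := by
  have := hcop.isUnit_of_dvd' hm hn
  rw [Int.isUnit_iff] at this
  have h2 := hp.two_le
  omega

/-- Step B: `m` is a perfect square. -/
theorem core_num_sq {m e f : ℤ} (hm : 0 < m) (hcop : IsCoprime m (e ^ 2))
    (hf : m * (m - e ^ 2) * (m - 81 * e ^ 2) = f ^ 2) : ∃ u : ℤ, m = u ^ 2 := by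
  obtain ⟨j, m₀, h3m₀, hmj⟩ := exists_pow_mul_not_dvd 3 (by norm_num) hm.ne'
  have hm₀pos : 0 < m₀ := by
    have h3 : (0 : ℤ) < ((3 : ℕ) : ℤ) ^ j := by positivity
    rw [hmj] at hm
    exact (mul_pos_iff_of_pos_left h3).mp hm
  have hm₀m : m₀ ∣ m := ⟨((3 : ℕ) : ℤ) ^ j, by rw [hmj]; ring⟩
  have hcop₀ : IsCoprime m₀ (((3 : ℕ) : ℤ) ^ j * ((m - e ^ 2) * (m - 81 * e ^ 2))) := by
    apply isCoprime_of_forall_prime
    intro p hp hpm₀ hpr
    have hpm : (p : ℤ) ∣ m := hpm₀.trans hm₀m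
    have hp' := Nat.prime_iff_prime_int.mp hp
    rcases hp'.dvd_or_dvd hpr with h | h
    · have : p = 3 := prime_eq_of_dvd_pow hp Nat.prime_three h
      subst this
      exact h3m₀ hpm₀
    · rcases hp'.dvd_or_dvd h with h | h
      · have hpn : (p : ℤ) ∣ e ^ 2 := by
          have := dvd_sub hpm h
          simpa using this
        exact not_dvd_of_isCoprime hcop hp hpm hpn
      · have h81 : (p : ℤ) ∣ 81 * e ^ 2 := by
          have := dvd_sub hpm h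
          simpa using this
        rcases hp'.dvd_or_dvd h81 with h | h
        · have : p = 3 := by
            have h' : (p : ℤ) ∣ ((3 : ℕ) : ℤ) ^ 4 := by norm_num; exact h
            exact prime_eq_of_dvd_pow hp Nat.prime_three h'
          subst this
          exact h3m₀ hpm₀
        · exact not_dvd_of_isCoprime hcop hp hpm h
  have hprod : m₀ * (((3 : ℕ) : ℤ) ^ j * ((m - e ^ 2) * (m - 81 * e ^ 2))) = f ^ 2 := by
    rw [← hf]
    conv_rhs => rw [hmj]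
    ring_nf
    rw [hmj]
    ring
  obtain ⟨u₀, hu₀⟩ := sq_of_isCoprime_of_pos hcop₀ hprod hm₀pos
  obtain ⟨i, rfl | rfl⟩ := Nat.even_or_odd' j
  · exact ⟨3 ^ i * u₀, by rw [hmj, hu₀]; push_cast; ring⟩
  · exfalso
    set u : ℤ := 3 ^ i * u₀ with hu
    have hm3 : m = 3 * u ^ 2 := by rw [hmj, hu₀, hu]; push_cast; ring
    have hu0 : u ≠ 0 := by
      rintro h0
      rw [hm3, h0] at hm
      simp at hm
    have he3 : ¬ (3 : ℤ) ∣ e := by
      intro h3e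
      have h3m : ((3 : ℕ) : ℤ) ∣ m := ⟨u ^ 2, by rw [hm3]; push_cast; ring⟩
      have h3n : ((3 : ℕ) : ℤ) ∣ e ^ 2 := by
        push_cast
        exact Dvd.dvd.pow h3e (by norm_num)
      exact not_dvd_of_isCoprime hcop Nat.prime_three h3m h3n
    have hf2 : f ^ 2 = (3 * u) ^ 2 * ((3 * u ^ 2 - e ^ 2) * (u ^ 2 - 27 * e ^ 2)) := by
      rw [← hf, hm3]; ring
    obtain ⟨t, rfl⟩ := exists_eq_mul_of_sq_eq_sq_mul hf2
    have h3u : (3 * u) ^ 2 ≠ 0 := pow_ne_zero 2 (mul_ne_zero (by norm_num) hu0)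
    have ht : (3 * u ^ 2 - e ^ 2) * (u ^ 2 - 27 * e ^ 2) = t ^ 2 := by
      have : (3 * u) ^ 2 * ((3 * u ^ 2 - e ^ 2) * (u ^ 2 - 27 * e ^ 2)) = (3 * u) ^ 2 * t ^ 2 := by
        rw [← hf2]; ring
      exact mul_left_cancel₀ h3u this
    exact no_three_mul_sq he3 ht

end Fermat.Agent.S51.Descent15

namespace Fermat.Agent.S51.Descent15

/-- Step C: `u² - e² = κ v²` with `κ ∈ {±1, ±5}`. -/
theorem core_sub_sq {u e t : ℤ} (hcop : IsCoprime u e) (ht : t ≠ 0)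
    (h : (u ^ 2 - e ^ 2) * (u ^ 2 - 81 * e ^ 2) = t ^ 2) :
    ∃ κ v : ℤ, (κ = 1 ∨ κ = -1 ∨ κ = 5 ∨ κ = -5) ∧ u ^ 2 - e ^ 2 = κ * v ^ 2 := by
  have hA0 : u ^ 2 - e ^ 2 ≠ 0 := by
    intro h0
    rw [h0, zero_mul] at h
    exact ht (pow_eq_zero_iff (by norm_num) |>.mp h.symm)
  obtain ⟨i, A₁, h2A₁, hA₁⟩ := exists_pow_mul_not_dvd 2 (by norm_num) hA0
  have hA₁0 : A₁ ≠ 0 := by
    rintro rfl
    rw [mul_zero] at hA₁
    exact hA0 hA₁
  obtain ⟨j, A₀, h5A₀, hA₀⟩ := exists_pow_mul_not_dvd 5 (by norm_num) hA₁0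
  have h2A₀ : ¬ ((2 : ℕ) : ℤ) ∣ A₀ := by
    intro h2
    apply h2A₁
    rw [hA₀]
    exact Dvd.dvd.mul_left h2 _
  have hA : u ^ 2 - e ^ 2 = ((2 : ℕ) : ℤ) ^ i * (((5 : ℕ) : ℤ) ^ j * A₀) := by rw [hA₁, hA₀]
  have hA₀A : A₀ ∣ u ^ 2 - e ^ 2 := ⟨((2 : ℕ) : ℤ) ^ i * ((5 : ℕ) : ℤ) ^ j, by rw [hA]; ring⟩
  have hcop₀ : IsCoprime A₀ (((2 : ℕ) : ℤ) ^ i * ((5 : ℕ) : ℤ) ^ j * (u ^ 2 - 81 * e ^ 2)) := by
    apply isCoprime_of_forall_prime
    intro p hp hpA₀ hpr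
    have hp' := Nat.prime_iff_prime_int.mp hp
    have hpA : (p : ℤ) ∣ u ^ 2 - e ^ 2 := hpA₀.trans hA₀A
    rcases hp'.dvd_or_dvd hpr with h' | h'
    · rcases hp'.dvd_or_dvd h' with h'' | h''
      · have : p = 2 := prime_eq_of_dvd_pow hp Nat.prime_two h''
        subst this
        exact h2A₀ hpA₀
      · have : p = 5 := prime_eq_of_dvd_pow hp Nat.prime_five h''
        subst this
        exact h5A₀ hpA₀
    · have h80 : (p : ℤ) ∣ 80 * e ^ 2 := by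
        have := dvd_sub hpA h'
        have e1 : u ^ 2 - e ^ 2 - (u ^ 2 - 81 * e ^ 2) = 80 * e ^ 2 := by ring
        rwa [e1] at this
      rcases hp'.dvd_or_dvd h80 with h'' | h''
      · have h''' : (p : ℤ) ∣ ((2 : ℕ) : ℤ) ^ 4 * ((5 : ℕ) : ℤ) ^ 1 := by norm_num; exact h''
        rcases hp'.dvd_or_dvd h''' with h4 | h4
        · have : p = 2 := prime_eq_of_dvd_pow hp Nat.prime_two h4
          subst this
          exact h2A₀ hpA₀
        · have : p = 5 := prime_eq_of_dvd_pow hp Nat.prime_five h4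
          subst this
          exact h5A₀ hpA₀
      · have hpe : (p : ℤ) ∣ e := hp'.dvd_of_dvd_pow h''
        have hpu2 : (p : ℤ) ∣ u ^ 2 := by
          have := dvd_add hpA h''
          have e1 : u ^ 2 - e ^ 2 + e ^ 2 = u ^ 2 := by ring
          rwa [e1] at this
        have hpu : (p : ℤ) ∣ u := hp'.dvd_of_dvd_pow hpu2
        exact not_dvd_of_isCoprime hcop hp hpu hpe
  have hprod : A₀ * (((2 : ℕ) : ℤ) ^ i * ((5 : ℕ) : ℤ) ^ j * (u ^ 2 - 81 * e ^ 2)) = t ^ 2 := by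
    rw [← h, hA]; ring
  obtain ⟨v₀, hv₀⟩ := Int.sq_of_isCoprime hcop₀ hprod
  -- a sign `σ` with `A₀ = σ v₀²`
  obtain ⟨σ, hσ, hAσ⟩ : ∃ σ : ℤ, (σ = 1 ∨ σ = -1) ∧ A₀ = σ * v₀ ^ 2 := by
    rcases hv₀ with h' | h'
    · exact ⟨1, Or.inl rfl, by rw [h']; ring⟩
    · exact ⟨-1, Or.inr rfl, by rw [h']; ring⟩
  obtain ⟨i', rfl | rfl⟩ := Nat.even_or_odd' i
  · -- `i` even
    obtain ⟨j', rfl | rfl⟩ := Nat.even_or_odd' j
    · refine ⟨σ, 2 ^ i' * 5 ^ j' * v₀, ?_, ?_⟩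
      · rcases hσ with rfl | rfl <;> simp
      · rw [hA, hAσ]; push_cast; ring
    · refine ⟨5 * σ, 2 ^ i' * 5 ^ j' * v₀, ?_, ?_⟩
      · rcases hσ with rfl | rfl <;> simp
      · rw [hA, hAσ]; push_cast; ring
  · -- `i` odd: impossible
    exfalso
    obtain ⟨j', rfl | rfl⟩ := Nat.even_or_odd' j
    · refine no_two_mul (κ := σ) (w := 2 ^ i' * 5 ^ j' * v₀) ?_ hcop ?_ ht h
      · rcases hσ with rfl | rfl <;> simp
      · rw [hA, hAσ]; push_cast; ring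
    · refine no_two_mul (κ := 5 * σ) (w := 2 ^ i' * 5 ^ j' * v₀) ?_ hcop ?_ ht h
      · rcases hσ with rfl | rfl <;> simp
      · rw [hA, hAσ]; push_cast; ring

end Fermat.Agent.S51.Descent15

namespace Fermat.Agent.S51.Descent15

/-- The integer 2-descent for `y² = x (x - 1) (x - 81)`: for a point `x = m / n` in lowest terms
with `y ≠ 0`, `m` and `n` are squares and `m - n` is `±1` or `±5` times a square. -/
theorem core_two_descent {m n z : ℤ} (hn : 0 < n) (hcop : IsCoprime m n)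
    (hz : z ^ 2 = n * m * (m - n) * (m - 81 * n)) (hz0 : z ≠ 0) :
    ∃ u e v κ : ℤ, (κ = 1 ∨ κ = -1 ∨ κ = 5 ∨ κ = -5) ∧ m = u ^ 2 ∧ n = e ^ 2 ∧ e ≠ 0 ∧
      m - n = κ * v ^ 2 := by
  have hcop1 : IsCoprime n m := hcop.symm
  have hcop2 : IsCoprime n (m - n) := by
    have := hcop1.add_mul_left_right (-1)
    have e1 : m + n * -1 = m - n := by ring
    rwa [e1] at this
  have hcop3 : IsCoprime n (m - 81 * n) := by
    have := hcop1.add_mul_left_right (-81)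
    have e1 : m + n * -81 = m - 81 * n := by ring
    rwa [e1] at this
  have hcopM : IsCoprime n (m * (m - n) * (m - 81 * n)) := (hcop1.mul_right hcop2).mul_right hcop3
  have hprod : n * (m * (m - n) * (m - 81 * n)) = z ^ 2 := by rw [hz]; ring
  obtain ⟨e, he⟩ := sq_of_isCoprime_of_pos hcopM hprod hn
  have hz2 : 0 < z ^ 2 := by positivity
  have hMpos : 0 < m * (m - n) * (m - 81 * n) := by
    rw [← hprod] at hz2
    exact (mul_pos_iff_of_pos_left hn).mp hz2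
  have hprod' : (m * (m - n) * (m - 81 * n)) * n = z ^ 2 := by rw [← hprod]; ring
  obtain ⟨f, hf⟩ := sq_of_isCoprime_of_pos hcopM.symm hprod' hMpos
  have he0 : e ≠ 0 := by
    rintro rfl
    rw [he] at hn
    simp at hn
  -- `m > 0`
  have hm : 0 < m := by
    by_contra hm
    rw [not_lt] at hm
    have h1 : m - n < 0 := by linarith
    have h2 : m - 81 * n < 0 := by linarith
    have h3 : 0 < (m - n) * (m - 81 * n) := mul_pos_of_neg_of_neg h1 h2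
    have h4 : m * ((m - n) * (m - 81 * n)) ≤ 0 := mul_nonpos_of_nonpos_of_nonneg hm h3.le
    have h5 : m * (m - n) * (m - 81 * n) = m * ((m - n) * (m - 81 * n)) := by ring
    linarith
  subst he
  obtain ⟨u, rfl⟩ := core_num_sq hm hcop hf
  have hcop' : IsCoprime u e := (IsCoprime.pow_iff (by norm_num) (by norm_num)).mp hcop
  have hu0 : u ≠ 0 := by
    rintro rfl
    simp at hm
  have hf0 : f ≠ 0 := by
    rintro rfl
    rw [hf] at hMpos
    simp at hMpos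
  have hf2 : f ^ 2 = u ^ 2 * ((u ^ 2 - e ^ 2) * (u ^ 2 - 81 * e ^ 2)) := by rw [← hf]; ring
  obtain ⟨t, rfl⟩ := exists_eq_mul_of_sq_eq_sq_mul hf2
  have ht0 : t ≠ 0 := by
    rintro rfl
    simp at hf0
  have ht : (u ^ 2 - e ^ 2) * (u ^ 2 - 81 * e ^ 2) = t ^ 2 := by
    have hu2 : u ^ 2 ≠ 0 := pow_ne_zero 2 hu0
    have : u ^ 2 * ((u ^ 2 - e ^ 2) * (u ^ 2 - 81 * e ^ 2)) = u ^ 2 * t ^ 2 := by
      rw [← hf2]; ring
    exact mul_left_cancel₀ hu2 this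
  obtain ⟨κ, v, hκ, hv⟩ := core_sub_sq hcop' ht0 ht
  exact ⟨u, e, v, κ, hκ, rfl, rfl, he0, hv⟩

end Fermat.Agent.S51.Descent15
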