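import Fermat.Agent.S51.Descent15.Rational

set_option autoImplicit false

namespace Fermat.Agent.S51.Descent15

/-- Integer points on the 2-covering `a² - c² = b²`, `a² - 81 c² = d²` with `c ≠ 0`. -/
def Star (a : ℕ) : Prop :=
  ∃ c b d : ℤ, c ≠ 0 ∧ (a : ℤ) ^ 2 - c ^ 2 = b ^ 2 ∧ (a : ℤ) ^ 2 - 81 * c ^ 2 = d ^ 2

theorem star_of_three_squares {x : ℚ} (h1 : IsSquare x) (h2 : IsSquare (x - 1))
    (h3 : IsSquare (x - 81)) : ∃ a : ℕ, Star a ∧ (a : ℤ) ^ 2 = x.num := by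
  obtain ⟨r, hr⟩ := h1
  obtain ⟨s, hs⟩ := h2
  obtain ⟨t, ht⟩ := h3
  have hc0 : (r.den : ℤ) ≠ 0 := by exact_mod_cast r.den_ne_zero
  have hnum : (r.num : ℚ) = r * (r.den : ℚ) := (Rat.mul_den_eq_num r).symm
  have hx1 : r * r - 1 = s * s := by rw [← hr]; exact hs
  have hx81 : r * r - 81 = t * t := by rw [← hr]; exact ht
  have hb : IsSquare (((r.num) ^ 2 - (r.den : ℤ) ^ 2 : ℤ) : ℚ) := by
    refine ⟨s * (r.den : ℚ), ?_⟩
    push_cast
    rw [hnum]
    linear_combination ((r.den : ℚ) ^ 2) * hx1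
  have hd : IsSquare (((r.num) ^ 2 - 81 * (r.den : ℤ) ^ 2 : ℤ) : ℚ) := by
    refine ⟨t * (r.den : ℚ), ?_⟩
    push_cast
    rw [hnum]
    linear_combination ((r.den : ℚ) ^ 2) * hx81
  rw [Rat.isSquare_intCast_iff] at hb hd
  obtain ⟨b, hb⟩ := hb
  obtain ⟨d, hd⟩ := hd
  refine ⟨r.num.natAbs, ⟨(r.den : ℤ), b, d, hc0, ?_, ?_⟩, ?_⟩
  · rw [Int.natAbs_sq, hb]; ring
  · rw [Int.natAbs_sq, hd]; ring
  · rw [Int.natAbs_sq, hr, Rat.mul_self_num]; ring

theorem star_descent {a : ℕ} (h : Star a) : ∃ a' : ℕ, a' < a ∧ Star a' := by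
  obtain ⟨c, b, d, hc, hb, hd⟩ := h
  have hc2 : 0 < c ^ 2 := by positivity
  have ha2 : (81 : ℤ) ≤ (a : ℤ) ^ 2 := by nlinarith [sq_nonneg d]
  have hapos : (2 : ℤ) ≤ (a : ℤ) := by
    by_contra hlt
    rw [not_le] at hlt
    have h0 : (0 : ℤ) ≤ (a : ℤ) := Int.natCast_nonneg a
    nlinarith
  have hblt : |b| < |(a : ℤ)| := by
    rw [← sq_lt_sq]; nlinarith
  have hdlt : |d| < |(a : ℤ)| := by
    rw [← sq_lt_sq]; nlinarith
  rw [abs_of_nonneg (Int.natCast_nonneg a), abs_lt] at hblt hdlt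
  -- rational versions
  have hB : (a : ℚ) ^ 2 - (c : ℚ) ^ 2 = (b : ℚ) ^ 2 := by exact_mod_cast hb
  have hD : (a : ℚ) ^ 2 - 81 * (c : ℚ) ^ 2 = (d : ℚ) ^ 2 := by exact_mod_cast hd
  have hC : (c : ℚ) ≠ 0 := by exact_mod_cast hc
  have hC2 : (c : ℚ) ^ 2 ≠ 0 := pow_ne_zero 2 hC
  have hAB1 : (a : ℚ) - b ≠ 0 := by
    have : (0 : ℤ) < (a : ℤ) - b := by linarith [hblt.2]
    exact_mod_cast this.ne'
  have hAB2 : (a : ℚ) + b ≠ 0 := by
    have : (0 : ℤ) < (a : ℤ) + b := by linarith [hblt.1]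
    exact_mod_cast this.ne'
  have hAD2 : (a : ℚ) + d ≠ 0 := by
    have : (0 : ℤ) < (a : ℤ) + d := by linarith [hdlt.1]
    exact_mod_cast this.ne'
  have hBD : (b : ℚ) + d ≠ 0 := by
    intro h0
    have : ((b : ℚ) + d) * ((b : ℚ) - d) = 80 * (c : ℚ) ^ 2 := by linear_combination hD - hB
    rw [h0, zero_mul] at this
    have : (c : ℚ) ^ 2 = 0 := by linarith
    exact hC2 this
  set A : ℚ := (a : ℚ) with hA
  set B : ℚ := (b : ℚ) with hB'
  set C : ℚ := (c : ℚ) with hC'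
  set D : ℚ := (d : ℚ) with hD'
  set xR : ℚ := (A + D) / (A - B) with hxR
  set yR : ℚ := (A + B) * (A + D) * (B + D) / C ^ 3 with hyR
  have e0 : xR = (A + B) * (A + D) / C ^ 2 := by
    rw [hxR, div_eq_div_iff hAB1 hC2]
    linear_combination (-(A + D)) * hB
  have e1 : xR - 1 = (A + B) * (B + D) / C ^ 2 := by
    have : xR - 1 = (B + D) / (A - B) := by rw [hxR]; field_simp; ring
    rw [this, div_eq_div_iff hAB1 hC2]
    linear_combination (-(B + D)) * hB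
  have e2 : xR - 81 = (A + D) * (B + D) / C ^ 2 := by
    have : xR - 81 = (D - 80 * A + 81 * B) / (A - B) := by rw [hxR]; field_simp; ring
    rw [this, div_eq_div_iff hAB1 hC2]
    linear_combination (-(A + D)) * hB + (A - B) * hD
  have hcurve : yR ^ 2 = xR * (xR - 1) * (xR - 81) := by
    calc yR ^ 2 = ((A + B) * (A + D) / C ^ 2) * ((A + B) * (B + D) / C ^ 2)
          * ((A + D) * (B + D) / C ^ 2) := by rw [hyR]; field_simp
      _ = xR * (xR - 1) * (xR - 81) := by rw [← e0, ← e1, ← e2]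
  have hyR0 : yR ≠ 0 := by
    rw [hyR]
    exact div_ne_zero (mul_ne_zero (mul_ne_zero hAB2 hAD2) hBD) (pow_ne_zero 3 hC)
  obtain ⟨x', hx', h1, h2, h3⟩ := exists_translate hcurve hyR0
  -- `x' = M / N` with `0 < M ≤ 2 a - 1`
  have hMN : ∃ M N : ℤ, N ≠ 0 ∧ 0 < M ∧ M ≤ 2 * (a : ℤ) - 1 ∧ x' = (M : ℚ) / (N : ℚ) := by
    rcases hx' with rfl | rfl | rfl | rfl
    · refine ⟨(a : ℤ) + d, (a : ℤ) - b, by linarith [hblt.2], by linarith [hdlt.1],
        by linarith [hdlt.2], ?_⟩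
      push_cast; rfl
    · refine ⟨(a : ℤ) - d, (a : ℤ) + b, by linarith [hblt.1], by linarith [hdlt.2],
        by linarith [hdlt.1], ?_⟩
      push_cast
      have : 81 / xR = 81 * (A - B) / (A + D) := by rw [hxR]; field_simp
      rw [this, div_eq_div_iff hAD2 hAB2]
      linear_combination 81 * hB - hD
    · refine ⟨(a : ℤ) + d, (a : ℤ) + b, by linarith [hblt.1], by linarith [hdlt.1],
        by linarith [hdlt.2], ?_⟩
      have key : (xR - 81) / (xR - 1) = (A + D) / (A + B) := by rw [e2, e1]; field_simp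
      rw [key]; push_cast; rfl
    · refine ⟨(a : ℤ) - d, (a : ℤ) - b, by linarith [hblt.2], by linarith [hdlt.2],
        by linarith [hdlt.1], ?_⟩
      push_cast
      have : 81 * (xR - 1) / (xR - 81) = 81 * (A + B) / (A + D) := by rw [e1, e2]; field_simp
      rw [this, div_eq_div_iff hAD2 hAB1]
      linear_combination 81 * hB - hD
  obtain ⟨M, N, hN, hMpos, hMle, hxMN⟩ := hMN
  obtain ⟨a', hstar, ha'⟩ := star_of_three_squares h1 h2 h3
  refine ⟨a', ?_, hstar⟩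
  have hdvd : x'.num ∣ M := by
    have := Rat.num_dvd M hN
    rwa [Rat.divInt_eq_div, ← hxMN] at this
  have hle : x'.num ≤ M := Int.le_of_dvd hMpos hdvd
  have hlt : (a' : ℤ) ^ 2 < (a : ℤ) ^ 2 := by
    rw [ha']
    nlinarith
  by_contra hge
  rw [not_lt] at hge
  have : (a : ℤ) ≤ (a' : ℤ) := by exact_mod_cast hge
  have h0 : (0 : ℤ) ≤ (a : ℤ) := Int.natCast_nonneg a
  nlinarith

theorem no_star : ∀ a : ℕ, ¬ Star a := by
  intro a
  induction a using Nat.strong_induction_on with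
  | _ a ih =>
    intro h
    obtain ⟨a', ha', hs⟩ := star_descent h
    exact ih a' ha' hs

/-- The curve `y² = x (x - 1) (x - 81)` (15a2) has no rational points with `y ≠ 0`. -/
theorem eq_zero_of_curve81 {x y : ℚ} (h : y ^ 2 = x * (x - 1) * (x - 81)) : y = 0 := by
  by_contra hy
  obtain ⟨x', -, h1, h2, h3⟩ := exists_translate h hy
  obtain ⟨a, hs, -⟩ := star_of_three_squares h1 h2 h3
  exact no_star a hs

end Fermat.Agent.S51.Descent15
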