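import Fermat.Agent.S51.Descent15.Basic

set_option autoImplicit false

namespace Fermat.Agent.S51.Descent15

lemma zmod3_obstruction : ∀ e u t : ZMod 3, e ≠ 0 → u ≠ 0 →
    (3 * u ^ 2 - e ^ 2) * (u ^ 2 - 27 * e ^ 2) ≠ t ^ 2 := by decide

lemma zmod3_obstruction' : ∀ e u t : ZMod 3, e ≠ 0 → u ≠ 0 →
    (27 * u ^ 2 - e ^ 2) * (u ^ 2 - 3 * e ^ 2) ≠ t ^ 2 := by decide

lemma zmod3_obstruction'' : ∀ e u t : ZMod 3, e ≠ 0 →
    (243 * u ^ 2 - e ^ 2) * (3 * u ^ 2 - e ^ 2) ≠ 3 * t ^ 2 := by decide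

lemma intCast_zmod3_ne_zero {e : ℤ} (he : ¬ (3 : ℤ) ∣ e) : (e : ZMod 3) ≠ 0 := by
  intro h
  exact he ((ZMod.intCast_zmod_eq_zero_iff_dvd e 3).mp h)

/-- The 3-adic obstruction: `m = 3 u²`, `n = e²` is impossible. -/
theorem no_three_mul_sq {u e t : ℤ} (he3 : ¬ (3 : ℤ) ∣ e)
    (h : (3 * u ^ 2 - e ^ 2) * (u ^ 2 - 27 * e ^ 2) = t ^ 2) : False := by
  have he : (e : ZMod 3) ≠ 0 := intCast_zmod3_ne_zero he3
  by_cases h3u : (3 : ℤ) ∣ u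
  · obtain ⟨u₁, rfl⟩ := h3u
    have h3t : (3 : ℤ) ∣ t := by
      apply three_dvd_of_three_dvd_sq
      rw [← h]
      exact ⟨(3 * (3 * u₁) ^ 2 - e ^ 2) * (3 * u₁ ^ 2 - 9 * e ^ 2), by ring⟩
    obtain ⟨t₁, rfl⟩ := h3t
    have h1 : (27 * u₁ ^ 2 - e ^ 2) * (u₁ ^ 2 - 3 * e ^ 2) = t₁ ^ 2 := by
      have : 9 * ((27 * u₁ ^ 2 - e ^ 2) * (u₁ ^ 2 - 3 * e ^ 2)) = 9 * t₁ ^ 2 := by
        linear_combination h
      linarith
    by_cases h3u₁ : (3 : ℤ) ∣ u₁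
    · obtain ⟨u₂, rfl⟩ := h3u₁
      have h3t₁ : (3 : ℤ) ∣ t₁ := by
        apply three_dvd_of_three_dvd_sq
        rw [← h1]
        exact ⟨(27 * (3 * u₂) ^ 2 - e ^ 2) * (3 * u₂ ^ 2 - e ^ 2), by ring⟩
      obtain ⟨t₂, rfl⟩ := h3t₁
      have h2 : (243 * u₂ ^ 2 - e ^ 2) * (3 * u₂ ^ 2 - e ^ 2) = 3 * t₂ ^ 2 := by
        have : 3 * ((243 * u₂ ^ 2 - e ^ 2) * (3 * u₂ ^ 2 - e ^ 2)) = 3 * (3 * t₂ ^ 2) := by
          linear_combination h1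
        linarith
      have key := congrArg (Int.cast : ℤ → ZMod 3) h2
      push_cast at key
      exact zmod3_obstruction'' _ _ _ he key
    · have hu₁ : (u₁ : ZMod 3) ≠ 0 := intCast_zmod3_ne_zero h3u₁
      have key := congrArg (Int.cast : ℤ → ZMod 3) h1
      push_cast at key
      exact zmod3_obstruction' _ _ _ he hu₁ key
  · have hu : (u : ZMod 3) ≠ 0 := intCast_zmod3_ne_zero h3u
    have key := congrArg (Int.cast : ℤ → ZMod 3) h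
    push_cast at key
    exact zmod3_obstruction _ _ _ he hu key

lemma zmod8_obstruction : ∀ w t e : ZMod 8, e ^ 2 = 1 →
    (1 * (1 * w ^ 2 - 10 * e ^ 2) ≠ t ^ 2) ∧ ((-1) * ((-1) * w ^ 2 - 10 * e ^ 2) ≠ t ^ 2) ∧
    (5 * (5 * w ^ 2 - 10 * e ^ 2) ≠ t ^ 2) ∧ ((-5) * ((-5) * w ^ 2 - 10 * e ^ 2) ≠ t ^ 2) := by
  decide

lemma zmod8_odd_sq : ∀ x : ZMod 8, (x = 1 ∨ x = 3 ∨ x = 5 ∨ x = 7) → x ^ 2 = 1 := by decide

lemma intCast_zmod8_sq_of_odd {e : ℤ} (he : ¬ (2 : ℤ) ∣ e) : ((e : ZMod 8)) ^ 2 = 1 := by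
  apply zmod8_odd_sq
  have h8 : e % 8 = 1 ∨ e % 8 = 3 ∨ e % 8 = 5 ∨ e % 8 = 7 := by omega
  have hc : (e : ZMod 8) = ((e % 8 : ℤ) : ZMod 8) := by
    have := ZMod.intCast_mod e 8
    exact_mod_cast this.symm
  rcases h8 with h | h | h | h <;> rw [hc, h] <;> simp

end Fermat.Agent.S51.Descent15

namespace Fermat.Agent.S51.Descent15

lemma not_two_dvd_of_isCoprime_of_sq_sub {u e k : ℤ} (hcop : IsCoprime u e)
    (hA : u ^ 2 - e ^ 2 = 2 * k) : ¬ (2 : ℤ) ∣ u ∧ ¬ (2 : ℤ) ∣ e := by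
  have h2 : ¬ ((2 : ℤ) ∣ u ∧ (2 : ℤ) ∣ e) := by
    rintro ⟨hu, he⟩
    have := hcop.isUnit_of_dvd' hu he
    rw [Int.isUnit_iff] at this
    omega
  constructor
  · intro hu
    apply h2
    refine ⟨hu, ?_⟩
    apply two_dvd_of_two_dvd_sq
    obtain ⟨u', rfl⟩ := hu
    exact ⟨2 * u' ^ 2 - k, by linear_combination (-1 : ℤ) * hA⟩
  · intro he
    apply h2
    refine ⟨?_, he⟩
    apply two_dvd_of_two_dvd_sq
    obtain ⟨e', rfl⟩ := he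
    exact ⟨2 * e' ^ 2 + k, by linear_combination hA⟩

/-- The 2-adic obstruction: `u² - e² = 2 κ w²` with `κ ∈ {±1, ±5}` is impossible. -/
theorem no_two_mul {u e w t κ : ℤ} (hκ : κ = 1 ∨ κ = -1 ∨ κ = 5 ∨ κ = -5)
    (hcop : IsCoprime u e) (hA : u ^ 2 - e ^ 2 = 2 * κ * w ^ 2) (ht : t ≠ 0)
    (h : (u ^ 2 - e ^ 2) * (u ^ 2 - 81 * e ^ 2) = t ^ 2) : False := by
  obtain ⟨hu2, he2⟩ := not_two_dvd_of_isCoprime_of_sq_sub hcop (by rw [hA]; ring : u ^ 2 - e ^ 2 = 2 * (κ * w ^ 2))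
  -- `u`, `e` odd
  obtain ⟨k, hk⟩ : ∃ k, u = 2 * k + 1 := by
    have : u % 2 = 1 := by omega
    exact ⟨u / 2, by omega⟩
  obtain ⟨l, hl⟩ : ∃ l, e = 2 * l + 1 := by
    have : e % 2 = 1 := by omega
    exact ⟨e / 2, by omega⟩
  -- `w` is even
  have hkk : (2 : ℤ) ∣ k * (k + 1) := by
    rcases Int.emod_two_eq_zero_or_one k with h0 | h1
    · exact Dvd.dvd.mul_right (Int.dvd_of_emod_eq_zero h0) _
    · exact Dvd.dvd.mul_left (Int.dvd_of_emod_eq_zero (by omega)) _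
  have hll : (2 : ℤ) ∣ l * (l + 1) := by
    rcases Int.emod_two_eq_zero_or_one l with h0 | h1
    · exact Dvd.dvd.mul_right (Int.dvd_of_emod_eq_zero h0) _
    · exact Dvd.dvd.mul_left (Int.dvd_of_emod_eq_zero (by omega)) _
  obtain ⟨k', hk'⟩ := hkk
  obtain ⟨l', hl'⟩ := hll
  have hκw : κ * w ^ 2 = 4 * (k' - l') := by
    have h1 : u ^ 2 - e ^ 2 = 4 * (k * (k + 1)) - 4 * (l * (l + 1)) := by rw [hk, hl]; ring
    rw [hk', hl'] at h1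
    have : 2 * (κ * w ^ 2) = 2 * (4 * (k' - l')) := by linear_combination h1 - hA
    linarith
  have hw2 : (2 : ℤ) ∣ w := by
    apply two_dvd_of_two_dvd_sq
    have h2 : (2 : ℤ) ∣ κ * w ^ 2 := ⟨2 * (k' - l'), by rw [hκw]; ring⟩
    rcases Int.prime_two.dvd_or_dvd h2 with h3 | h3
    · exfalso
      rcases hκ with rfl | rfl | rfl | rfl <;> omega
    · exact h3
  obtain ⟨w₁, rfl⟩ := hw2
  have hA' : u ^ 2 - e ^ 2 = 8 * κ * w₁ ^ 2 := by rw [hA]; ring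
  have hw₁ : w₁ ≠ 0 := by
    rintro rfl
    apply ht
    have : t ^ 2 = 0 := by rw [← h, hA']; ring
    exact pow_eq_zero_iff (by norm_num) |>.mp this
  have hB : u ^ 2 - 81 * e ^ 2 = 8 * (κ * w₁ ^ 2 - 10 * e ^ 2) := by linear_combination hA'
  have ht2 : t ^ 2 = (8 * w₁) ^ 2 * (κ * (κ * w₁ ^ 2 - 10 * e ^ 2)) := by
    rw [← h, hA', hB]; ring
  obtain ⟨t₁, rfl⟩ := exists_eq_mul_of_sq_eq_sq_mul ht2
  have ht₁ : κ * (κ * w₁ ^ 2 - 10 * e ^ 2) = t₁ ^ 2 := by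
    have h8 : (8 * w₁) ^ 2 ≠ 0 := pow_ne_zero 2 (mul_ne_zero (by norm_num) hw₁)
    have : (8 * w₁) ^ 2 * (κ * (κ * w₁ ^ 2 - 10 * e ^ 2)) = (8 * w₁) ^ 2 * t₁ ^ 2 := by
      rw [← ht2]; ring
    exact mul_left_cancel₀ h8 this
  have he8 := intCast_zmod8_sq_of_odd he2
  have key := congrArg (Int.cast : ℤ → ZMod 8) ht₁
  obtain ⟨o1, o2, o3, o4⟩ := zmod8_obstruction (w₁ : ZMod 8) (t₁ : ZMod 8) (e : ZMod 8) he8
  rcases hκ with rfl | rfl | rfl | rfl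
  · push_cast at key; exact o1 key
  · push_cast at key; exact o2 key
  · push_cast at key; exact o3 key
  · push_cast at key; exact o4 key

end Fermat.Agent.S51.Descent15
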