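import Fermat.Agent.S51.Descent15.Core

set_option autoImplicit false
set_option linter.unusedSimpArgs false
set_option linter.unusedTactic false
set_option linter.unreachableTactic false

namespace Fermat.Agent.S51.Descent15

/-- Rational 2-descent on `y² = x (x - 1) (x - 81)`. -/
theorem two_descent {x y : ℚ} (h : y ^ 2 = x * (x - 1) * (x - 81)) (hy : y ≠ 0) :
    ∃ r s κ : ℚ, (κ = 1 ∨ κ = -1 ∨ κ = 5 ∨ κ = -5) ∧ x = r ^ 2 ∧ x - 1 = κ * s ^ 2 := by
  set m : ℤ := x.num with hm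
  set n : ℤ := (x.den : ℤ) with hn
  have hnpos : 0 < n := by rw [hn]; exact_mod_cast x.den_pos
  have hn0 : (n : ℚ) ≠ 0 := by exact_mod_cast hnpos.ne'
  have hcop : IsCoprime m n := Rat.isCoprime_num_den x
  have hx : x = (m : ℚ) / (n : ℚ) := by
    rw [hm, hn]
    exact_mod_cast (Rat.num_div_den x).symm
  have hN : ((n * m * (m - n) * (m - 81 * n) : ℤ) : ℚ) = (y * (n : ℚ) ^ 2) * (y * (n : ℚ) ^ 2) := by
    push_cast
    have : y ^ 2 = (m : ℚ) / n * ((m : ℚ) / n - 1) * ((m : ℚ) / n - 81) := by rw [← hx]; exact h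
    have e2 : (y * (n : ℚ) ^ 2) * (y * (n : ℚ) ^ 2) = y ^ 2 * (n : ℚ) ^ 4 := by ring
    rw [e2, this]
    field_simp
  have hsq : IsSquare ((n * m * (m - n) * (m - 81 * n) : ℤ) : ℚ) := ⟨_, hN⟩
  rw [Rat.isSquare_intCast_iff] at hsq
  obtain ⟨z, hz⟩ := hsq
  have hz' : z ^ 2 = n * m * (m - n) * (m - 81 * n) := by rw [hz]; ring
  have hz0 : z ≠ 0 := by
    rintro rfl
    have h0 : ((n * m * (m - n) * (m - 81 * n) : ℤ) : ℚ) = 0 := by rw [hz]; simp
    rw [hN] at h0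
    have : y * (n : ℚ) ^ 2 = 0 := by simpa using h0
    rcases mul_eq_zero.mp this with h1 | h1
    · exact hy h1
    · exact hn0 (pow_eq_zero_iff (by norm_num) |>.mp h1)
  obtain ⟨u, e, v, κ, hκ, hmu, hne, he0, hv⟩ := core_two_descent hnpos hcop hz' hz0
  have he0' : (e : ℚ) ≠ 0 := by exact_mod_cast he0
  refine ⟨(u : ℚ) / e, (v : ℚ) / e, (κ : ℚ), ?_, ?_, ?_⟩
  · rcases hκ with rfl | rfl | rfl | rfl <;> simp
  · rw [hx, hmu, hne]; push_cast; field_simp
  · have hv' : ((m : ℚ) - n) = κ * v ^ 2 := by exact_mod_cast hv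
    have : x - 1 = ((m : ℚ) - n) / n := by rw [hx]; field_simp
    rw [this, hv', hne]; push_cast; field_simp

end Fermat.Agent.S51.Descent15

namespace Fermat.Agent.S51.Descent15

/-- After translating by a 2-torsion point, `x`, `x - 1`, `x - 81` are all squares. -/
theorem exists_translate {x y : ℚ} (h : y ^ 2 = x * (x - 1) * (x - 81)) (hy : y ≠ 0) :
    ∃ x' : ℚ, (x' = x ∨ x' = 81 / x ∨ x' = (x - 81) / (x - 1) ∨ x' = 81 * (x - 1) / (x - 81)) ∧
      IsSquare x' ∧ IsSquare (x' - 1) ∧ IsSquare (x' - 81) := by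
  obtain ⟨r, s, κ, hκ, hr, hs⟩ := two_descent h hy
  have hy2 : y ^ 2 ≠ 0 := pow_ne_zero 2 hy
  have hx0 : x ≠ 0 := by
    rintro rfl
    apply hy2; rw [h]; ring
  have hx1 : x - 1 ≠ 0 := by
    intro h0
    apply hy2; rw [h, h0]; ring
  have hx81 : x - 81 ≠ 0 := by
    intro h0
    apply hy2; rw [h, h0]; ring
  subst hr
  have hr0 : r ≠ 0 := by
    rintro rfl
    apply hx0; ring
  have hs0 : s ≠ 0 := by
    rintro rfl
    apply hx1; rw [hs]; ring
  have hκ0 : κ ≠ 0 := by rcases hκ with rfl | rfl | rfl | rfl <;> norm_num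
  have hyy : y ^ 2 = r ^ 2 * (κ * s ^ 2) * (r ^ 2 - 81) := by rw [h, hs]
  set t : ℚ := y / (κ * r * s) with ht
  have hS : s ^ 2 = (r ^ 2 - 1) / κ := by rw [hs]; field_simp
  have hT : t ^ 2 = (r ^ 2 - 81) / κ := by
    rw [ht, div_pow, hyy]; field_simp
  have ht0 : t ≠ 0 := by
    rw [ht]
    exact div_ne_zero hy (mul_ne_zero (mul_ne_zero hκ0 hr0) hs0)
  rcases hκ with rfl | rfl | rfl | rfl
  · -- κ = 1
    refine ⟨r ^ 2, Or.inl rfl, ⟨r, sq r⟩, ⟨s, ?_⟩, ⟨t, ?_⟩⟩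
    · rw [← sq, hS]; field_simp
    · rw [← sq, hT]; field_simp
  · -- κ = -1
    refine ⟨81 / r ^ 2, Or.inr (Or.inl rfl), ⟨9 / r, ?_⟩, ⟨t / r, ?_⟩, ⟨9 * s / r, ?_⟩⟩
    · rw [← sq]; simp only [div_pow, mul_pow, hS, hT]; first | (field_simp; ring) | field_simp
    · rw [← sq]; simp only [div_pow, mul_pow, hS, hT]; first | (field_simp; ring) | field_simp
    · rw [← sq]; simp only [div_pow, mul_pow, hS, hT]; first | (field_simp; ring) | field_simp
  · -- κ = 5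
    refine ⟨81 * (r ^ 2 - 1) / (r ^ 2 - 81), Or.inr (Or.inr (Or.inr rfl)), ⟨9 * s / t, ?_⟩,
      ⟨4 * r / t, ?_⟩, ⟨36 / t, ?_⟩⟩
    · rw [← sq]; simp only [div_pow, mul_pow, hS, hT]; first | (field_simp; ring) | field_simp
    · rw [← sq]; simp only [div_pow, mul_pow, hS, hT]; first | (field_simp; ring) | field_simp
    · rw [← sq]; simp only [div_pow, mul_pow, hS, hT]; first | (field_simp; ring) | field_simp
  · -- κ = -5
    refine ⟨(r ^ 2 - 81) / (r ^ 2 - 1), Or.inr (Or.inr (Or.inl rfl)), ⟨t / s, ?_⟩,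
      ⟨4 / s, ?_⟩, ⟨4 * r / s, ?_⟩⟩
    · rw [← sq]; simp only [div_pow, mul_pow, hS, hT]; first | (field_simp; ring) | field_simp
    · rw [← sq]; simp only [div_pow, mul_pow, hS, hT]; first | (field_simp; ring) | field_simp
    · rw [← sq]; simp only [div_pow, mul_pow, hS, hT]; first | (field_simp; ring) | field_simp

end Fermat.Agent.S51.Descent15
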